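import Mathlib

/-!
# S27 / ULIFT, part U1: an essentially finite type field extension is small

`F` essentially of finite type over `K : Type u` (any universe for `F`) is `Small.{u}`, hence
`F ≃ₐ[K] Shrink.{u} F` with `Shrink.{u} F : Type u` a field and a `K`-algebra (Mathlib instances).
-/

set_option autoImplicit false

namespace Fermat.Agent.S27.H190

universe u v

/-- A field essentially of finite type over `K : Type u` is `u`-small. -/
theorem small_of_essFiniteType (K : Type u) (F : Type v) [Field K] [Field F] [Algebra K F]
    [Algebra.EssFiniteType K F] : Small.{u} F := by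
  classical
  let s : Finset F := Algebra.EssFiniteType.finset K F
  let n := s.card
  let f : Fin n → F := fun i => (s.equivFin.symm i : F)
  have hrange : Set.range f = (s : Set F) := by
    ext x
    constructor
    · rintro ⟨i, rfl⟩
      exact (s.equivFin.symm i).2
    · intro hx
      exact ⟨s.equivFin ⟨x, hx⟩, by simp [f]⟩
  let g : MvPolynomial (Fin n) K × MvPolynomial (Fin n) K → F :=
    fun p => MvPolynomial.aeval f p.1 / MvPolynomial.aeval f p.2
  have hg : Function.Surjective g := by
    intro x
    obtain ⟨⟨a, m⟩, hx⟩ := IsLocalization.surj (Algebra.EssFiniteType.submonoid K F) x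
    have ha : (a : F) ∈ (MvPolynomial.aeval f : MvPolynomial (Fin n) K →ₐ[K] F).range := by
      rw [← Algebra.adjoin_range_eq_range_aeval, hrange]
      exact a.2
    have hm : ((m : Algebra.EssFiniteType.subalgebra K F) : F) ∈
        (MvPolynomial.aeval f : MvPolynomial (Fin n) K →ₐ[K] F).range := by
      rw [← Algebra.adjoin_range_eq_range_aeval, hrange]
      exact (m : Algebra.EssFiniteType.subalgebra K F).2
    obtain ⟨p, hp⟩ := ha
    obtain ⟨q, hq⟩ := hm
    have hmu : IsUnit ((m : Algebra.EssFiniteType.subalgebra K F) : F) := m.2
    refine ⟨(p, q), ?_⟩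
    show MvPolynomial.aeval f p / MvPolynomial.aeval f q = x
    have hp' : MvPolynomial.aeval f p = (a : F) := hp
    have hq' : MvPolynomial.aeval f q = ((m : Algebra.EssFiniteType.subalgebra K F) : F) := hq
    rw [hp', hq', div_eq_iff hmu.ne_zero]
    exact hx.symm
  exact small_of_surjective hg

/-- **U1**: a field `F` (in any universe) essentially of finite type over `K : Type u` has a model
in `Type u`. -/
theorem exists_algEquiv_small (K : Type u) (F : Type v) [Field K] [Field F] [Algebra K F]
    [Algebra.EssFiniteType K F] :
    ∃ (F' : Type u) (_ : Field F') (_ : Algebra K F'), Nonempty (F ≃ₐ[K] F') := by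
  haveI : Small.{u} F := small_of_essFiniteType K F
  exact ⟨Shrink.{u} F, inferInstance, inferInstance, ⟨(Shrink.algEquiv K F).symm⟩⟩

end Fermat.Agent.S27.H190
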