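import Fermat.Agent.S27.H190.ULiftPlace
import Fermat.Agent.S27.H190.ULiftSmall

/-!
# S27 / ULIFT, parts U2b + U3: transport of repartitions, `genusFF`, `IsCurveOver`; the glue

* `genusFF_eq_of_algEquiv`, `isCurveOver_of_algEquiv`;
* `s27_of_small`: the statement of S27 for `K F : Type u` in ONE universe implies the frozen
  statement of S27 (`K F : Type*`, i.e. two independent universes).

Mathlib + Prelude only.
-/

set_option autoImplicit false

noncomputable section

open AlgebraicCurve IsDedekindDomain WithZero IsLocalRing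

namespace Fermat.Agent.S27.H190

universe u v w

variable {K : Type u} {F : Type v} {F' : Type w} [Field K] [Field F] [Field F']
  [Algebra K F] [Algebra K F']

/-! ### Repartitions -/

/-- Transport of families `Place K F → F`. -/
def funMap (e : F ≃ₐ[K] F') (α : Place K F → F) : Place K F' → F' :=
  fun w => e (α (placeMap e.symm w))

@[simp]
theorem funMap_apply (e : F ≃ₐ[K] F') (α : Place K F → F) (w : Place K F') :
    funMap e α w = e (α (placeMap e.symm w)) := rfl

theorem funMap_apply_placeMap (e : F ≃ₐ[K] F') (α : Place K F → F) (v : Place K F) :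
    funMap e α (placeMap e v) = e (α v) := by
  rw [funMap_apply, placeMap_symm_placeMap]

@[simp]
theorem funMap_symm_funMap (e : F ≃ₐ[K] F') (α : Place K F → F) :
    funMap e.symm (funMap e α) = α := by
  funext v
  simp only [funMap_apply, AlgEquiv.symm_symm, placeMap_symm_placeMap, AlgEquiv.symm_apply_apply]

@[simp]
theorem funMap_funMap_symm (e : F ≃ₐ[K] F') (α : Place K F' → F') :
    funMap e (funMap e.symm α) = α := by
  have h := funMap_symm_funMap e.symm α
  rwa [AlgEquiv.symm_symm] at h

theorem funMap_add (e : F ≃ₐ[K] F') (α β : Place K F → F) :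
    funMap e (α + β) = funMap e α + funMap e β := by
  funext w; simp

theorem funMap_mul (e : F ≃ₐ[K] F') (α β : Place K F → F) :
    funMap e (α * β) = funMap e α * funMap e β := by
  funext w; simp

theorem funMap_algebraMap (e : F ≃ₐ[K] F') (c : F) :
    funMap e (algebraMap F (Place K F → F) c) = algebraMap F' (Place K F' → F') (e c) := by
  funext w; simp [Pi.algebraMap_apply]

theorem funMap_smul (e : F ≃ₐ[K] F') (c : K) (α : Place K F → F) :
    funMap e (c • α) = c • funMap e α := by
  funext w; simp

theorem funMap_const (e : F ≃ₐ[K] F') (f : F) :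
    funMap e (fun _ => f) = fun _ => e f := rfl

theorem funMap_mem_repartitions (e : F ≃ₐ[K] F') {α : Place K F → F}
    (hα : α ∈ repartitions K F) : funMap e α ∈ repartitions K F' := by
  unfold repartitions at hα
  induction hα using Algebra.adjoin_induction with
  | mem α hα =>
    apply mem_repartitions_of_finite
    have hα' : {v : Place K F | ¬v.adicValuation (α v) ≤ 1}.Finite := hα
    refine (hα'.image (placeMap e)).subset ?_
    intro w hw
    refine ⟨placeMap e.symm w, ?_, placeMap_placeMap_symm e w⟩
    simp only [Set.mem_setOf_eq] at hw ⊢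
    have h := adicValuation_placeMap e (placeMap e.symm w) (α (placeMap e.symm w))
    rw [placeMap_placeMap_symm] at h
    rw [← h]
    exact hw
  | algebraMap c =>
    rw [funMap_algebraMap]
    exact Subalgebra.algebraMap_mem _ _
  | add α β _ _ hα hβ =>
    rw [funMap_add]
    exact add_mem hα hβ
  | mul α β _ _ hα hβ =>
    rw [funMap_mul]
    exact mul_mem hα hβ

/-- Transport of repartitions, as a `K`-linear equivalence. -/
def repEquiv (e : F ≃ₐ[K] F') : ↥(repartitions K F) ≃ₗ[K] ↥(repartitions K F') where
  toFun α := ⟨funMap e α, funMap_mem_repartitions e α.2⟩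
  invFun α := ⟨funMap e.symm α, funMap_mem_repartitions e.symm α.2⟩
  left_inv α := Subtype.ext (funMap_symm_funMap e _)
  right_inv α := Subtype.ext (funMap_funMap_symm e _)
  map_add' α β := Subtype.ext (funMap_add e _ _)
  map_smul' c α := Subtype.ext (funMap_smul e c _)

@[simp]
theorem coe_repEquiv (e : F ≃ₐ[K] F') (α : ↥(repartitions K F)) :
    ((repEquiv e α : ↥(repartitions K F')) : Place K F' → F') = funMap e α := rfl

@[simp]
theorem coe_repEquiv_symm (e : F ≃ₐ[K] F') (α : ↥(repartitions K F')) :
    (((repEquiv e).symm α : ↥(repartitions K F)) : Place K F → F) = funMap e.symm α := rfl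

theorem repEquiv_mem_repartitionsOf_iff (e : F ≃ₐ[K] F') (D : Divisor K F)
    (α : ↥(repartitions K F)) :
    repEquiv e α ∈ repartitionsOf (divisorEquiv e D) ↔ α ∈ repartitionsOf D := by
  constructor
  · intro h v
    have hv := h (placeMap e v)
    rw [coe_repEquiv, funMap_apply_placeMap, adicValuation_placeMap,
      divisorEquiv_apply_placeMap] at hv
    exact hv
  · intro h w
    have hv := h (placeMap e.symm w)
    rw [coe_repEquiv, funMap_apply, divisorEquiv_apply]
    have h2 := adicValuation_placeMap e (placeMap e.symm w)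
      ((α : Place K F → F) (placeMap e.symm w))
    rw [placeMap_placeMap_symm] at h2
    rw [h2]
    exact hv

theorem repEquiv_mem_principal_iff (e : F ≃ₐ[K] F') (α : ↥(repartitions K F)) :
    repEquiv e α ∈ principalRepartitions K F' ↔ α ∈ principalRepartitions K F := by
  rw [mem_principalRepartitions_iff, mem_principalRepartitions_iff]
  constructor
  · rintro ⟨f, hf⟩
    refine ⟨e.symm f, ?_⟩
    have h := congrArg (funMap e.symm) hf
    rw [coe_repEquiv, funMap_symm_funMap] at h
    rw [h]
    rfl
  · rintro ⟨f, hf⟩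
    refine ⟨e f, ?_⟩
    rw [coe_repEquiv, hf]
    rfl

theorem map_repartitionsOf (e : F ≃ₐ[K] F') (D : Divisor K F) :
    (repartitionsOf D).map ((repEquiv e : ↥(repartitions K F) ≃ₗ[K] ↥(repartitions K F')) :
      ↥(repartitions K F) →ₗ[K] ↥(repartitions K F')) = repartitionsOf (divisorEquiv e D) := by
  ext β
  simp only [Submodule.mem_map, LinearEquiv.coe_coe]
  constructor
  · rintro ⟨α, hα, rfl⟩
    exact (repEquiv_mem_repartitionsOf_iff e D α).mpr hα
  · intro hβ
    refine ⟨(repEquiv e).symm β, ?_, LinearEquiv.apply_symm_apply _ _⟩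
    rw [← repEquiv_mem_repartitionsOf_iff e D, LinearEquiv.apply_symm_apply]
    exact hβ

theorem map_principalRepartitions (e : F ≃ₐ[K] F') :
    (principalRepartitions K F).map ((repEquiv e : ↥(repartitions K F) ≃ₗ[K] ↥(repartitions K F')) :
      ↥(repartitions K F) →ₗ[K] ↥(repartitions K F')) = principalRepartitions K F' := by
  ext β
  simp only [Submodule.mem_map, LinearEquiv.coe_coe]
  constructor
  · rintro ⟨α, hα, rfl⟩
    exact (repEquiv_mem_principal_iff e α).mpr hα
  · intro hβ
    refine ⟨(repEquiv e).symm β, ?_, LinearEquiv.apply_symm_apply _ _⟩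
    rw [← repEquiv_mem_principal_iff e, LinearEquiv.apply_symm_apply]
    exact hβ

/-- Transport of the adelic `H¹(D)`. -/
def h1Equiv (e : F ≃ₐ[K] F') (D : Divisor K F) : H1 D ≃ₗ[K] H1 (divisorEquiv e D) :=
  Submodule.Quotient.equiv _ _ (repEquiv e) <| by
    rw [Submodule.map_sup, map_repartitionsOf, map_principalRepartitions]

/-- **U2, genus**: `genusFF` is invariant under `K`-isomorphism. -/
theorem genusFF_eq_of_algEquiv (e : F ≃ₐ[K] F') : genusFF K F = genusFF K F' := by
  unfold genusFF
  have h := (h1Equiv e (0 : Divisor K F)).finrank_eq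
  rw [h]
  rw [map_zero]

/-! ### Kähler differentials -/

section Kaehler

open KaehlerDifferential

theorem finrank_kaehler_le_of_algEquiv (e : F ≃ₐ[K] F') [Module.Finite F Ω[F⁄K]] :
    Module.Finite F' Ω[F'⁄K] ∧ Module.finrank F' Ω[F'⁄K] ≤ Module.finrank F Ω[F⁄K] := by
  letI : Algebra F F' := e.toAlgHom.toRingHom.toAlgebra
  haveI : IsScalarTower K F F' := IsScalarTower.of_algebraMap_eq fun a => (e.commutes a).symm
  have hsurj : Function.Surjective (algebraMap F F') := e.surjective
  have h1 := KaehlerDifferential.mapBaseChange_surjective K F F' hsurj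
  haveI : Module.Finite F' (TensorProduct F F' Ω[F⁄K]) := inferInstance
  refine ⟨Module.Finite.of_surjective _ h1, ?_⟩
  calc Module.finrank F' Ω[F'⁄K]
      ≤ Module.finrank F' (TensorProduct F F' Ω[F⁄K]) :=
        LinearMap.finrank_le_finrank_of_surjective h1
    _ = Module.finrank F Ω[F⁄K] := Module.finrank_baseChange

theorem finrank_kaehler_eq_one_of_algEquiv (e : F ≃ₐ[K] F')
    (h : Module.finrank F Ω[F⁄K] = 1) : Module.finrank F' Ω[F'⁄K] = 1 := by
  haveI : Module.Finite F Ω[F⁄K] := Module.finite_of_finrank_pos (by rw [h]; exact one_pos)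
  obtain ⟨hfin, hle⟩ := finrank_kaehler_le_of_algEquiv e
  haveI := hfin
  obtain ⟨_, hge⟩ := finrank_kaehler_le_of_algEquiv e.symm
  omega

end Kaehler

/-- **U2, `IsCurveOver`** is invariant under `K`-isomorphism. -/
theorem isCurveOver_of_algEquiv (e : F ≃ₐ[K] F') [h : IsCurveOver K F] : IsCurveOver K F' where
  toHasPrincipalDivisors := hasPrincipalDivisors_of_algEquiv e
  finiteResidue := fun w => by
    have h1 := finite_residue_placeMap e (placeMap e.symm w) (h.finiteResidue _)
    rwa [placeMap_placeMap_symm] at h1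
  kaehler_free_rank_one :=
    ⟨Module.Free.of_divisionRing F' _, finrank_kaehler_eq_one_of_algEquiv e h.kaehler_free_rank_one.2⟩

/-- `Algebra.EssFiniteType` is invariant under `K`-isomorphism. -/
theorem essFiniteType_of_algEquiv (e : F ≃ₐ[K] F') [Algebra.EssFiniteType K F] :
    Algebra.EssFiniteType K F' :=
  (Algebra.EssFiniteType.iff_of_algEquiv e).mp inferInstance

/-! ### U3: the glue -/

/-- The statement of S27 with `K` and `F` in the same universe `u`. -/
def S27Small : Prop :=
  ∀ (K F : Type u) [Field K] [Field F] [Algebra K F] [IsAlgClosed K] [CharZero K]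
    [IsCurveOver K F] [Algebra.EssFiniteType K F] (ℓ : ℕ) [Fact ℓ.Prime] (k : ℕ),
    Nat.card (Pic0.torsion K F (ℓ ^ k)) = ℓ ^ (2 * genusFF K F * k)

/-- **ULIFT**: S27 in one universe implies S27 for `K : Type u`, `F : Type v`. -/
theorem s27_of_small (h : S27Small.{u})
    (K : Type u) (F : Type v) [Field K] [Field F] [Algebra K F] [IsAlgClosed K] [CharZero K]
    [IsCurveOver K F] [Algebra.EssFiniteType K F] (ℓ : ℕ) [Fact ℓ.Prime] (k : ℕ) :
    Nat.card (Pic0.torsion K F (ℓ ^ k)) = ℓ ^ (2 * genusFF K F * k) := by
  haveI : Small.{u} F := small_of_essFiniteType K F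
  let e : F ≃ₐ[K] Shrink.{u} F := (Shrink.algEquiv K F).symm
  haveI : IsCurveOver K (Shrink.{u} F) := isCurveOver_of_algEquiv e
  haveI : Algebra.EssFiniteType K (Shrink.{u} F) := essFiniteType_of_algEquiv e
  rw [natCard_torsion_eq_of_algEquiv e, genusFF_eq_of_algEquiv e]
  exact h K (Shrink.{u} F) ℓ k

end Fermat.Agent.S27.H190
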