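import Mathlib

/-!
# S27 / FF-ALG, part (T): a separating transcendental element  (helper190)

For a finitely generated field extension `F / K` of a perfect field, `rank_F Ω[F⁄K]` is the
cardinality of a separating transcendence basis.  Hence if `Ω[F⁄K]` has rank one, there is a
transcendental `x : F` with `F` finite and separable over `K(x)`.

Mathlib only.
-/

set_option autoImplicit false

noncomputable section

open scoped IntermediateField

namespace Fermat.Agent.S27.H190

universe u v

open KaehlerDifferential

section Rank

variable {K : Type u} {F : Type v} [Field K] [Field F] [Algebra K F]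

/-- If `s` is a separating transcendence basis of `F / K`, then `Ω[F⁄K]` has an `F`-basis indexed
by `s`. -/
theorem nonempty_basis_kaehler_of_isTranscendenceBasis (s : Finset F)
    (hs : IsTranscendenceBasis K ((↑) : s → F))
    (hsep : Algebra.IsSeparable (IntermediateField.adjoin K (s : Set F)) F) :
    Nonempty (Module.Basis s F Ω[F⁄K]) := by
  classical
  have hx : AlgebraicIndependent K ((↑) : s → F) := hs.1
  have hrange : Set.range ((↑) : s → F) = (s : Set F) := Subtype.range_coe
  -- the intermediate field
  let E := IntermediateField.adjoin K (Set.range ((↑) : s → F))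
  haveI hsepE : Algebra.IsSeparable E F := by
    show Algebra.IsSeparable (IntermediateField.adjoin K (Set.range ((↑) : s → F))) F
    rw [hrange]; exact hsep
  let P := MvPolynomial s K
  let Q := FractionRing P
  let φ : Q ≃ₐ[K] E := hx.aevalEquivField
  letI algPE : Algebra P E := (φ.toRingEquiv.toRingHom.comp (algebraMap P Q)).toAlgebra
  let ψ : Q ≃ₐ[P] E := AlgEquiv.ofRingEquiv (f := φ.toRingEquiv) (fun _ => rfl)
  haveI : IsLocalization (nonZeroDivisors P) E :=
    IsLocalization.isLocalization_of_algEquiv (nonZeroDivisors P) ψ
  haveI : Algebra.FormallyEtale P E := Algebra.FormallyEtale.of_isLocalization (nonZeroDivisors P)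
  haveI : Algebra.FormallyEtale E F := Algebra.FormallyEtale.of_isSeparable E F
  letI algPF : Algebra P F := ((algebraMap E F).comp (algebraMap P E)).toAlgebra
  haveI : IsScalarTower P E F := IsScalarTower.of_algebraMap_eq fun _ => rfl
  haveI : Algebra.FormallyEtale P F := Algebra.FormallyEtale.comp P E F
  haveI : IsScalarTower K P F := IsScalarTower.of_algebraMap_eq fun a => by
    show algebraMap K F a = algebraMap E F (φ (algebraMap P Q (algebraMap K P a)))
    rw [← IsScalarTower.algebraMap_apply K P Q, φ.commutes]
    rfl
  let e : TensorProduct P F Ω[P⁄K] ≃ₗ[F] Ω[F⁄K] :=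
    KaehlerDifferential.tensorKaehlerEquivOfFormallyEtale K P F
  let b : Module.Basis s F (TensorProduct P F Ω[P⁄K]) :=
    (KaehlerDifferential.mvPolynomialBasis K s).baseChange F
  exact ⟨b.map e⟩

theorem finrank_kaehler_eq_card_of_isTranscendenceBasis (s : Finset F)
    (hs : IsTranscendenceBasis K ((↑) : s → F))
    (hsep : Algebra.IsSeparable (IntermediateField.adjoin K (s : Set F)) F) :
    Module.finrank F Ω[F⁄K] = s.card := by
  obtain ⟨b⟩ := nonempty_basis_kaehler_of_isTranscendenceBasis s hs hsep
  rw [Module.finrank_eq_card_basis b, Fintype.card_coe]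

end Rank

/-- **(T)**: a finitely generated extension `F / K` of a perfect field with `Ω[F⁄K]` of rank one
contains a transcendental element `x` such that `F` is finite and separable over `K(x)`. -/
theorem exists_transcendental_finite_separable (K : Type u) (F : Type v) [Field K] [Field F]
    [Algebra K F] [PerfectField K] [Algebra.EssFiniteType K F]
    (h : Module.finrank F Ω[F⁄K] = 1) :
    ∃ x : F, Transcendental K x ∧ Module.Finite K⟮x⟯ F ∧ Algebra.IsSeparable K⟮x⟯ F := by
  classical
  obtain ⟨s, hs, hsep⟩ := exists_isTranscendenceBasis_and_isSeparable_of_perfectField K F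
  have hcard : s.card = 1 := by
    rw [← finrank_kaehler_eq_card_of_isTranscendenceBasis s hs hsep, h]
  obtain ⟨x, rfl⟩ := Finset.card_eq_one.mp hcard
  have hx : Transcendental K x :=
    hs.1.transcendental ⟨x, Finset.mem_singleton_self x⟩
  have hcoe : ((({x} : Finset F) : Set F)) = {x} := Finset.coe_singleton x
  rw [hcoe] at hsep
  haveI := hsep
  haveI : Algebra.EssFiniteType K⟮x⟯ F := Algebra.EssFiniteType.of_comp K K⟮x⟯ F
  haveI : Algebra.IsAlgebraic K⟮x⟯ F := Algebra.IsSeparable.isAlgebraic K⟮x⟯ F
  exact ⟨x, hx, Algebra.finite_of_essFiniteType_of_isAlgebraic, hsep⟩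

end Fermat.Agent.S27.H190
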