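import Mathlib
import Fermat.Prelude.Def_AlgebraicCurve_DivisorClassGroup
import Fermat.Prelude.Def_AlgebraicCurve_IsCurveOver
import Fermat.Prelude.Def_AlgebraicCurve_Repartitions

/-!
# S27 / ULIFT, part U2a: transport of places, divisors and `Pic0` along `e : F ≃ₐ[K] F'`

`F` and `F'` may live in different universes.  Mathlib + Prelude only.
-/

set_option autoImplicit false

noncomputable section

open AlgebraicCurve IsDedekindDomain WithZero IsLocalRing

namespace Fermat.Agent.S27.H190

universe u v w

variable {K : Type u} {F : Type v} {F' : Type w} [Field K] [Field F] [Field F']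
  [Algebra K F] [Algebra K F']

/-- Transport of a valuation subring along a field isomorphism. -/
def vsMap (e : F ≃ₐ[K] F') (A : ValuationSubring F) : ValuationSubring F' :=
  A.comap ((e.symm : F' ≃ₐ[K] F) : F' →+* F)

theorem mem_vsMap (e : F ≃ₐ[K] F') {A : ValuationSubring F} {x : F'} :
    x ∈ vsMap e A ↔ e.symm x ∈ A := Iff.rfl

theorem apply_mem_vsMap (e : F ≃ₐ[K] F') {A : ValuationSubring F} {x : F} :
    e x ∈ vsMap e A ↔ x ∈ A := by
  rw [mem_vsMap, e.symm_apply_apply]

theorem vsMap_symm_vsMap (e : F ≃ₐ[K] F') (A : ValuationSubring F) :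
    vsMap e.symm (vsMap e A) = A := by
  ext x
  rw [mem_vsMap, mem_vsMap]
  simp

/-- The ring isomorphism `A ≃+* vsMap e A`. -/
def vsRingEquiv (e : F ≃ₐ[K] F') (A : ValuationSubring F) : A ≃+* vsMap e A where
  toFun x := ⟨e x, (apply_mem_vsMap e).mpr x.2⟩
  invFun y := ⟨e.symm y, y.2⟩
  left_inv x := by ext; simp
  right_inv y := by ext; simp
  map_mul' x y := by ext; simp
  map_add' x y := by ext; simp

@[simp]
theorem coe_vsRingEquiv_apply (e : F ≃ₐ[K] F') (A : ValuationSubring F) (x : A) :
    ((vsRingEquiv e A x : vsMap e A) : F') = e x := rfl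

/-- Transport of a place along a field isomorphism over `K`. -/
def placeMap (e : F ≃ₐ[K] F') (v : Place K F) : Place K F' where
  toValuationSubring := vsMap e v.toValuationSubring
  algebraMap_mem' := fun a => by
    rw [mem_vsMap, e.symm.commutes]
    exact v.algebraMap_mem' a
  ne_top' := fun h => v.ne_top' <| by
    ext x
    refine ⟨fun _ => ValuationSubring.mem_top x, fun _ => ?_⟩
    have hx : e x ∈ vsMap e v.toValuationSubring := by
      rw [h]; exact ValuationSubring.mem_top _
    exact (apply_mem_vsMap e).mp hx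
  isPrincipalIdealRing' :=
    IsPrincipalIdealRing.of_surjective
      (vsRingEquiv e v.toValuationSubring : _ ≃+* _)
      (vsRingEquiv e v.toValuationSubring).surjective

@[simp]
theorem placeMap_toValuationSubring (e : F ≃ₐ[K] F') (v : Place K F) :
    (placeMap e v).toValuationSubring = vsMap e v.toValuationSubring := rfl

@[simp]
theorem placeMap_symm_placeMap (e : F ≃ₐ[K] F') (v : Place K F) :
    placeMap e.symm (placeMap e v) = v := by
  ext1
  exact vsMap_symm_vsMap e _

@[simp]
theorem placeMap_placeMap_symm (e : F ≃ₐ[K] F') (v : Place K F') :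
    placeMap e (placeMap e.symm v) = v := by
  have h := placeMap_symm_placeMap e.symm v
  rwa [AlgEquiv.symm_symm] at h

/-- The bijection on places induced by `e : F ≃ₐ[K] F'`. -/
def placeEquiv (e : F ≃ₐ[K] F') : Place K F ≃ Place K F' where
  toFun := placeMap e
  invFun := placeMap e.symm
  left_inv := placeMap_symm_placeMap e
  right_inv := placeMap_placeMap_symm e

@[simp]
theorem placeEquiv_apply (e : F ≃ₐ[K] F') (v : Place K F) : placeEquiv e v = placeMap e v := rfl

@[simp]
theorem placeEquiv_symm_apply (e : F ≃ₐ[K] F') (v : Place K F') :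
    (placeEquiv e).symm v = placeMap e.symm v := rfl

theorem ord_placeMap (e : F ≃ₐ[K] F') (v : Place K F) (f : F) :
    (placeMap e v).ord (e f) = v.ord f := by
  rcases eq_or_ne f 0 with rfl | hf
  · simp
  obtain ⟨π, hπ⟩ := IsDiscreteValuationRing.exists_irreducible v.toValuationSubring
  obtain ⟨u, hu⟩ := v.exists_unit_mul_zpow hf hπ
  set n := v.ord f with hn
  let r : v.toValuationSubring ≃+* (placeMap e v).toValuationSubring :=
    vsRingEquiv e v.toValuationSubring
  have hπ' : Irreducible (r π) := (MulEquiv.irreducible_iff r).mpr hπ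
  have hu' : IsUnit (r (u : v.toValuationSubring)) := u.isUnit.map r
  have hcoeu : ((hu'.unit : (placeMap e v).toValuationSubring) : F')
      = e ((u : v.toValuationSubring) : F) := by
    rw [IsUnit.unit_spec]
    rfl
  have hcoeπ : ((r π : (placeMap e v).toValuationSubring) : F') = e (π : F) := rfl
  have key : e f = ((hu'.unit : (placeMap e v).toValuationSubring) : F')
      * (((r π : (placeMap e v).toValuationSubring) : F') ^ n) := by
    rw [hcoeu, hcoeπ, hu, map_mul, map_zpow₀]
  rw [key, (placeMap e v).ord_unit_smul_zpow hu'.unit hπ' n]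

theorem ord_placeMap_symm (e : F ≃ₐ[K] F') (v : Place K F) (f : F') :
    (placeMap e v).ord f = v.ord (e.symm f) := by
  have h := ord_placeMap e v (e.symm f)
  rwa [e.apply_symm_apply] at h

theorem adicValuation_placeMap (e : F ≃ₐ[K] F') (v : Place K F) (f : F) :
    (placeMap e v).adicValuation (e f) = v.adicValuation f := by
  rcases eq_or_ne f 0 with rfl | hf
  · simp
  have hf' : e f ≠ 0 := by simpa using hf
  rw [(placeMap e v).adicValuation_eq_exp_neg_ord hf', v.adicValuation_eq_exp_neg_ord hf,
    ord_placeMap]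

theorem adicValuation_placeMap_symm (e : F ≃ₐ[K] F') (v : Place K F) (f : F') :
    (placeMap e v).adicValuation f = v.adicValuation (e.symm f) := by
  have h := adicValuation_placeMap e v (e.symm f)
  rwa [e.apply_symm_apply] at h

/-- The residue fields of `v` and `placeMap e v` are isomorphic over `K`. -/
def placeResidueAlgEquiv (e : F ≃ₐ[K] F') (v : Place K F) :
    v.ResidueField ≃ₐ[K] (placeMap e v).ResidueField :=
  AlgEquiv.ofRingEquiv (f := IsLocalRing.ResidueField.mapEquiv
      (vsRingEquiv e v.toValuationSubring)) <| fun a => by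
    have h3 : (vsRingEquiv e v.toValuationSubring) (algebraMap K v.toValuationSubring a)
        = algebraMap K (placeMap e v).toValuationSubring a := by
      ext
      rw [coe_vsRingEquiv_apply, Place.coe_algebraMap, e.commutes]
      rfl
    show IsLocalRing.ResidueField.mapEquiv _ (IsLocalRing.residue _ _) = IsLocalRing.residue _ _
    rw [IsLocalRing.ResidueField.mapEquiv_apply, IsLocalRing.ResidueField.map_residue]
    exact congrArg _ h3

@[simp]
theorem deg_placeMap (e : F ≃ₐ[K] F') (v : Place K F) : (placeMap e v).deg = v.deg :=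
  ((placeResidueAlgEquiv e v).toLinearEquiv.finrank_eq).symm

theorem finite_residue_placeMap (e : F ≃ₐ[K] F') (v : Place K F)
    (h : Module.Finite K v.ResidueField) : Module.Finite K (placeMap e v).ResidueField :=
  Module.Finite.equiv (placeResidueAlgEquiv e v).toLinearEquiv

/-! ### Divisors -/

/-- Transport of divisors. -/
def divisorEquiv (e : F ≃ₐ[K] F') : Divisor K F ≃+ Divisor K F' :=
  Finsupp.domCongr (placeEquiv e)

@[simp]
theorem divisorEquiv_apply (e : F ≃ₐ[K] F') (D : Divisor K F) (w : Place K F') :
    divisorEquiv e D w = D (placeMap e.symm w) := rfl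

theorem divisorEquiv_apply_placeMap (e : F ≃ₐ[K] F') (D : Divisor K F) (v : Place K F) :
    divisorEquiv e D (placeMap e v) = D v := by
  rw [divisorEquiv_apply, placeMap_symm_placeMap]

@[simp]
theorem divisorEquiv_single (e : F ≃ₐ[K] F') (v : Place K F) (n : ℤ) :
    divisorEquiv e (Finsupp.single v n) = Finsupp.single (placeMap e v) n := by
  ext w
  rw [divisorEquiv_apply]
  by_cases h : w = placeMap e v
  · subst h
    simp
  · rw [Finsupp.single_eq_of_ne' (Ne.symm h), Finsupp.single_eq_of_ne']
    intro h'
    apply h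
    rw [h', placeMap_placeMap_symm]

@[simp]
theorem divisorEquiv_symm (e : F ≃ₐ[K] F') :
    (divisorEquiv e).symm = divisorEquiv e.symm := by
  ext D v
  rfl

@[simp]
theorem degree_divisorEquiv (e : F ≃ₐ[K] F') (D : Divisor K F) :
    Divisor.degree (divisorEquiv e D) = Divisor.degree D := by
  induction D using Finsupp.induction with
  | zero => simp
  | single_add v n D _ _ ih =>
      rw [map_add, map_add, map_add, ih, divisorEquiv_single, Divisor.degree_single,
        Divisor.degree_single, deg_placeMap]

theorem divisorEquiv_mem_degZero (e : F ≃ₐ[K] F') {D : Divisor K F}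
    (hD : D ∈ Divisor.degZero (K := K) (F := F)) :
    divisorEquiv e D ∈ Divisor.degZero (K := K) (F := F') := by
  rwa [Divisor.mem_degZero, degree_divisorEquiv]

theorem divisorEquiv_mem_principal (e : F ≃ₐ[K] F') {D : Divisor K F}
    (hD : D ∈ Divisor.principal (K := K) (F := F)) :
    divisorEquiv e D ∈ Divisor.principal (K := K) (F := F') := by
  obtain ⟨f, hf, hD⟩ := hD
  refine ⟨e f, by simpa using hf, fun w => ?_⟩
  rw [divisorEquiv_apply, hD]
  have h := ord_placeMap e (placeMap e.symm w) f
  rw [placeMap_placeMap_symm] at h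
  exact h.symm

theorem divisorEquiv_mem_principal_iff (e : F ≃ₐ[K] F') {D : Divisor K F} :
    divisorEquiv e D ∈ Divisor.principal (K := K) (F := F') ↔
      D ∈ Divisor.principal (K := K) (F := F) := by
  refine ⟨fun h => ?_, divisorEquiv_mem_principal e⟩
  have h' := divisorEquiv_mem_principal e.symm h
  rw [← divisorEquiv_symm, AddEquiv.symm_apply_apply] at h'
  exact h'

/-- `HasPrincipalDivisors` is invariant under `K`-isomorphism. -/
theorem hasPrincipalDivisors_of_algEquiv (e : F ≃ₐ[K] F') [h : HasPrincipalDivisors K F] :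
    HasPrincipalDivisors K F' := by
  refine ⟨fun f hf => ?_⟩
  have hf' : e.symm f ≠ 0 := by simpa using hf
  obtain ⟨D, hD, hdeg⟩ := h.exists_divisor (e.symm f) hf'
  refine ⟨divisorEquiv e D, fun w => ?_, by rw [degree_divisorEquiv, hdeg]⟩
  rw [divisorEquiv_apply, hD]
  have h := ord_placeMap_symm e (placeMap e.symm w) f
  rw [placeMap_placeMap_symm] at h
  exact h.symm

/-! ### `Pic0` -/

/-- Transport of degree-zero divisors. -/
def degZeroEquiv (e : F ≃ₐ[K] F') :
    Divisor.degZero (K := K) (F := F) ≃+ Divisor.degZero (K := K) (F := F') where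
  toFun D := ⟨divisorEquiv e D, divisorEquiv_mem_degZero e D.2⟩
  invFun D := ⟨divisorEquiv e.symm D, divisorEquiv_mem_degZero e.symm D.2⟩
  left_inv D := by
    apply Subtype.ext
    show divisorEquiv e.symm (divisorEquiv e (D : Divisor K F)) = D
    rw [← divisorEquiv_symm, AddEquiv.symm_apply_apply]
  right_inv D := by
    apply Subtype.ext
    show divisorEquiv e (divisorEquiv e.symm (D : Divisor K F')) = D
    rw [← divisorEquiv_symm, AddEquiv.apply_symm_apply]
  map_add' D E := by
    apply Subtype.ext
    show divisorEquiv e ((D : Divisor K F) + E) = divisorEquiv e D + divisorEquiv e E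
    exact map_add _ _ _

@[simp]
theorem coe_degZeroEquiv (e : F ≃ₐ[K] F') (D : Divisor.degZero (K := K) (F := F)) :
    (degZeroEquiv e D : Divisor K F') = divisorEquiv e (D : Divisor K F) := rfl

/-- **Transport of `Pic0`** along `e : F ≃ₐ[K] F'`. -/
def pic0Equiv (e : F ≃ₐ[K] F') : Pic0 K F ≃+ Pic0 K F' :=
  QuotientAddGroup.congr _ _ (degZeroEquiv e) <| by
    ext D
    simp only [AddSubgroup.mem_map, AddSubgroup.mem_addSubgroupOf]
    constructor
    · rintro ⟨D₀, hD₀, rfl⟩
      exact divisorEquiv_mem_principal e hD₀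
    · intro hD
      refine ⟨(degZeroEquiv e).symm D, ?_, by simp⟩
      have h := (divisorEquiv_mem_principal_iff e
        (D := (((degZeroEquiv e).symm D : Divisor.degZero (K := K) (F := F)) : Divisor K F))).mp
      apply h
      have h2 : divisorEquiv e (((degZeroEquiv e).symm D : Divisor.degZero (K := K) (F := F)) :
          Divisor K F) = (D : Divisor K F') := by
        rw [← coe_degZeroEquiv, AddEquiv.apply_symm_apply]
      rw [h2]
      exact hD

theorem pic0Equiv_mem_torsion_iff (e : F ≃ₐ[K] F') (n : ℕ) (x : Pic0 K F) :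
    pic0Equiv e x ∈ Pic0.torsion K F' n ↔ x ∈ Pic0.torsion K F n := by
  rw [Pic0.mem_torsion, Pic0.mem_torsion, ← map_zsmul, map_eq_zero_iff _ (pic0Equiv e).injective]

/-- **U2, torsion count**: the number of `n`-torsion classes is invariant under `K`-isomorphism. -/
theorem natCard_torsion_eq_of_algEquiv (e : F ≃ₐ[K] F') (n : ℕ) :
    Nat.card (Pic0.torsion K F n) = Nat.card (Pic0.torsion K F' n) :=
  Nat.card_congr
    ((pic0Equiv e).toEquiv.subtypeEquiv fun x => (pic0Equiv_mem_torsion_iff e n x).symm)

end Fermat.Agent.S27.H190
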